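import Mathlib.Data.ZMod.Basic
import Mathlib.Algebra.GCDMonoid.Finset
import Mathlib.Algebra.GCDMonoid.Nat
import Mathlib.GroupTheory.Archimedean
import Mathlib.RingTheory.Int.Basic
import Mathlib.Algebra.BigOperators.Fin
import Mathlib.Data.Fin.Tuple.Basic
import Mathlib.Tactic.Linarith
import Mathlib.Tactic.Ring
import Mathlib.Tactic.Positivity
import Mathlib.Tactic.FinCases
import Mathlib.Tactic.LinearCombination
import Mathlib.Tactic.Push

/-!
# Least representatives of the residues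

For `a : Fin n → ℕ` and a modulus `m` the least combination of the `a i` in each residue class
decides which integers are combinations of the `a i` and `m`; the largest least one, less `m`, is
the Frobenius number.
-/

set_option autoImplicit false

noncomputable section

open Finset

namespace FA.FrobeniusProblem

variable {n : ℕ}

/-- The value of a combination. -/
def lin (a w : Fin n → ℕ) : ℕ := ∑ i, a i * w i

/-- An integer that is a natural combination of the `a i` and `m`. -/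
def Rep (a : Fin n → ℕ) (m : ℕ) (k : ℤ) : Prop :=
  ∃ (w : Fin n → ℕ) (j : ℕ), (lin a w : ℤ) + m * j = k

variable {a : Fin n → ℕ} {m : ℕ}

theorem lin_add (a w v : Fin n → ℕ) : lin a (w + v) = lin a w + lin a v := by
  simp [lin, mul_add, sum_add_distrib]

theorem lin_smul (a : Fin n → ℕ) (c : ℕ) (w : Fin n → ℕ) :
    lin a (fun i => c * w i) = c * lin a w := by
  simp [lin, mul_sum, mul_left_comm]

theorem lin_single (a : Fin n → ℕ) (i : Fin n) : lin a (Pi.single i 1) = a i := by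
  rw [lin, sum_eq_single i (fun j _ hj => by simp [hj]) (fun h => absurd (mem_univ i) h)]
  simp

/-- Every residue class contains a combination. -/
theorem exists_class [NeZero m] (hg : Nat.gcd (univ.gcd a) m = 1) (r : ZMod m) :
    ∃ w, (lin a w : ZMod m) = r := by
  let H : AddSubgroup ℤ :=
    { carrier := {k | ∃ w, (lin a w : ZMod m) = (k : ZMod m)}
      zero_mem' := ⟨0, by simp [lin]⟩
      add_mem' := by
        rintro x y ⟨w, hw⟩ ⟨v, hv⟩
        exact ⟨w + v, by rw [lin_add, Nat.cast_add, hw, hv, Int.cast_add]⟩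
      neg_mem' := by
        rintro x ⟨w, hw⟩
        refine ⟨fun i => (m - 1) * w i, ?_⟩
        rw [lin_smul, Nat.cast_mul, Nat.cast_sub (Nat.one_le_iff_ne_zero.2 (NeZero.ne m)), hw,
          ZMod.natCast_self, Nat.cast_one, zero_sub, neg_one_mul, Int.cast_neg] }
  obtain ⟨g₀, hH⟩ := Int.subgroup_cyclic H
  have hdvd : ∀ k ∈ H, g₀ ∣ k := fun k hk => by
    rw [hH, AddSubgroup.mem_closure_singleton] at hk
    obtain ⟨c, rfl⟩ := hk
    exact ⟨c, by rw [smul_eq_mul, mul_comm]⟩
  have h1 : ∀ i, g₀.natAbs ∣ a i := fun i =>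
    Int.natAbs_dvd_natAbs.2 (hdvd (a i) ⟨Pi.single i 1, by rw [lin_single, Int.cast_natCast]⟩)
  have h2 : g₀.natAbs ∣ m :=
    Int.natAbs_dvd_natAbs.2 (hdvd m ⟨0, by simp [lin]⟩)
  have h3 : g₀ ∣ 1 := Int.natAbs_dvd_natAbs.1 (by
    rw [Int.natAbs_one, ← hg]
    exact Nat.dvd_gcd (Finset.dvd_gcd fun i _ => h1 i) h2)
  have hone : (1 : ℤ) ∈ H := by
    rw [hH, AddSubgroup.mem_closure_singleton]
    obtain ⟨c, hc⟩ := h3
    exact ⟨c, by rw [smul_eq_mul, mul_comm, ← hc]⟩
  have hr := H.zsmul_mem hone (r.val : ℤ)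
  rw [smul_eq_mul, mul_one] at hr
  obtain ⟨w, hw⟩ := hr
  exact ⟨w, by rw [hw, Int.cast_natCast, ZMod.natCast_zmod_val]⟩

/-- The least combination in a residue class. -/
def minRes (a : Fin n → ℕ) (m : ℕ) (r : ZMod m) : ℕ :=
  sInf {v | ∃ w, lin a w = v ∧ (v : ZMod m) = r}

/-- The largest of the least combinations. -/
def top (a : Fin n → ℕ) (m : ℕ) [NeZero m] : ℕ := univ.sup fun r : ZMod m => minRes a m r

section

variable [NeZero m]

theorem minRes_le {w : Fin n → ℕ} {r : ZMod m} (h : (lin a w : ZMod m) = r) :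
    minRes a m r ≤ lin a w :=
  Nat.sInf_le ⟨w, rfl, h⟩

theorem minRes_spec (hg : Nat.gcd (univ.gcd a) m = 1) (r : ZMod m) :
    ∃ w, lin a w = minRes a m r ∧ ((minRes a m r : ℕ) : ZMod m) = r := by
  obtain ⟨w, hw⟩ := exists_class hg r
  exact Nat.sInf_mem (s := {v | ∃ w, lin a w = v ∧ (v : ZMod m) = r}) ⟨_, w, rfl, hw⟩

theorem minRes_le_top (r : ZMod m) : minRes a m r ≤ top a m :=
  Finset.le_sup (f := fun r : ZMod m => minRes a m r) (mem_univ r)

theorem exists_top_eq : ∃ r : ZMod m, minRes a m r = top a m := by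
  obtain ⟨r, -, hr⟩ := exists_mem_eq_sup (univ : Finset (ZMod m)) univ_nonempty
    fun r : ZMod m => minRes a m r
  exact ⟨r, hr.symm⟩

theorem top_le {B : ℕ} (h : ∀ r : ZMod m, ∃ w, (lin a w : ZMod m) = r ∧ lin a w ≤ B) :
    top a m ≤ B :=
  Finset.sup_le fun r _ => by
    obtain ⟨w, h1, h2⟩ := h r
    exact (minRes_le h1).trans h2

/-- **Brauer and Shockley**: representable means not below the least of the class. -/
theorem rep_iff (hg : Nat.gcd (univ.gcd a) m = 1) (k : ℤ) :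
    Rep a m k ↔ (minRes a m (k : ZMod m) : ℤ) ≤ k := by
  constructor
  · rintro ⟨w, j, rfl⟩
    have h : minRes a m (((lin a w : ℤ) + m * j : ℤ) : ZMod m) ≤ lin a w := minRes_le (by simp)
    have : (0 : ℤ) ≤ (m : ℤ) * j := by positivity
    omega
  · intro h
    obtain ⟨w, hw, hr⟩ := minRes_spec hg (k : ZMod m)
    have hd : (m : ℤ) ∣ k - (minRes a m (k : ZMod m) : ℤ) := by
      rw [← ZMod.intCast_zmod_eq_zero_iff_dvd, Int.cast_sub, Int.cast_natCast, hr, sub_self]
    obtain ⟨c, hc⟩ := hd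
    have hc0 : 0 ≤ c := by
      have hm : (0 : ℤ) < m := by exact_mod_cast Nat.pos_of_ne_zero (NeZero.ne m)
      by_contra hneg
      nlinarith
    refine ⟨w, c.toNat, ?_⟩
    rw [hw, Int.toNat_of_nonneg hc0, ← hc]
    ring

/-- The largest integer that is no combination. -/
theorem isGreatest_frobenius (hg : Nat.gcd (univ.gcd a) m = 1) :
    IsGreatest {k : ℤ | ¬ Rep a m k} ((top a m : ℤ) - m) := by
  constructor
  · obtain ⟨r, hr⟩ := exists_top_eq (a := a) (m := m)
    obtain ⟨w, -, hwr⟩ := minRes_spec hg r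
    rw [hr] at hwr
    rw [Set.mem_ofPred_eq, rep_iff hg, Int.cast_sub, Int.cast_natCast, Int.cast_natCast,
      ZMod.natCast_self, sub_zero, hwr, hr]
    have : 0 < m := Nat.pos_of_ne_zero (NeZero.ne m)
    omega
  · intro k hk
    rw [Set.mem_ofPred_eq, rep_iff hg, not_le] at hk
    have hd : (m : ℤ) ∣ (minRes a m (k : ZMod m) : ℤ) - k := by
      obtain ⟨w, -, hwr⟩ := minRes_spec hg (k : ZMod m)
      rw [← ZMod.intCast_zmod_eq_zero_iff_dvd, Int.cast_sub, Int.cast_natCast, hwr, sub_self]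
    have h1 := Int.le_of_dvd (by omega) hd
    have h2 := minRes_le_top (a := a) (k : ZMod m)
    omega

theorem eq_top_of_isGreatest (hg : Nat.gcd (univ.gcd a) m = 1) {g : ℤ}
    (h : IsGreatest {k : ℤ | ¬ Rep a m k} g) : g = (top a m : ℤ) - m :=
  h.unique (isGreatest_frobenius hg)

end

theorem rep_iff_exists_snoc {a : Fin (n + 1) → ℕ} (k : ℤ) :
    Rep (a ∘ Fin.castSucc) (a (Fin.last n)) k ↔
      ∃ w : Fin (n + 1) → ℕ, (∑ i, (a i : ℤ) * w i) = k := by
  constructor
  · rintro ⟨w, j, rfl⟩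
    refine ⟨Fin.snoc w j, ?_⟩
    simp [Fin.sum_univ_castSucc, lin]
  · rintro ⟨w, rfl⟩
    exact ⟨w ∘ Fin.castSucc, w (Fin.last n), by simp [Fin.sum_univ_castSucc, lin]⟩

theorem gcd_castSucc {a : Fin (n + 1) → ℕ} (h : univ.gcd a = 1) :
    Nat.gcd (univ.gcd (a ∘ Fin.castSucc)) (a (Fin.last n)) = 1 := by
  refine Nat.dvd_one.1 ((Finset.dvd_gcd fun i _ => ?_).trans (dvd_of_eq h))
  rcases Fin.eq_castSucc_or_eq_last i with ⟨j, rfl⟩ | rfl
  · exact (Nat.gcd_dvd_left _ _).trans (Finset.gcd_dvd (f := a ∘ Fin.castSucc) (mem_univ j))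
  · exact Nat.gcd_dvd_right _ _

end FA.FrobeniusProblem

end
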