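import Fermat.Agent.FrobeniusProblem.Basic
import Mathlib.Data.Set.Card
import Mathlib.Data.Fintype.Pi
import Mathlib.Order.Interval.Finset.Nat
import Mathlib.Data.Nat.Factorial.Basic
import Mathlib.Algebra.BigOperators.Fin
import Mathlib.Algebra.BigOperators.Intervals

/-!
# Counting below the largest representative

The combinations up to `T` are at most `(T + Σ a) ^ n / (n! ∏ a)`, and cover all residues when `T`
is the largest least representative. Also Selmer's count of the gaps and Johnson's reduction.
-/

set_option autoImplicit false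

noncomputable section

open Finset

namespace FA.FrobeniusProblem

variable {n : ℕ}

/-- The combinations with value at most `T`. -/
def below (a : Fin n → ℕ) (T : ℕ) : Set (Fin n → ℕ) := {w | lin a w ≤ T}

theorem below_finite {a : Fin n → ℕ} (ha : ∀ i, 0 < a i) (T : ℕ) : (below a T).Finite := by
  refine (Set.Finite.pi fun _ : Fin n => Set.finite_Iic T).subset fun w hw i _ => ?_
  show w i ≤ T
  refine le_trans ?_ (show lin a w ≤ T from hw)
  exact (Nat.le_mul_of_pos_left _ (ha i)).trans
    (single_le_sum (f := fun j => a j * w j) (fun j _ => Nat.zero_le _) (mem_univ i))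

theorem bernoulli_add (y c k : ℕ) : y ^ (k + 1) + (k + 1) * c * y ^ k ≤ (y + c) ^ (k + 1) := by
  induction k with
  | zero => simp
  | succ k ih =>
    calc y ^ (k + 1 + 1) + (k + 1 + 1) * c * y ^ (k + 1)
        ≤ y ^ (k + 1 + 1) + (k + 1 + 1) * c * y ^ (k + 1) + (k + 1) * c * c * y ^ k :=
          Nat.le_add_right _ _
      _ = (y ^ (k + 1) + (k + 1) * c * y ^ k) * (y + c) := by ring
      _ ≤ (y + c) ^ (k + 1) * (y + c) := Nat.mul_le_mul_right _ ih
      _ = (y + c) ^ (k + 1 + 1) := by ring

theorem card_below_le : ∀ {n : ℕ} (a : Fin n → ℕ), (∀ i, 0 < a i) → ∀ T : ℕ,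
    n.factorial * (∏ i, a i) * (below a T).ncard ≤ (T + ∑ i, a i) ^ n := by
  intro n
  induction n with
  | zero =>
    intro a _ T
    simp only [Nat.factorial_zero, univ_eq_empty, prod_empty, sum_empty, add_zero, one_mul,
      pow_zero]
    exact Set.ncard_le_one_of_subsingleton _
  | succ k ih =>
    intro a ha T
    induction T using Nat.strong_induction_on with
    | _ T iht =>
    have ha' : ∀ i, 0 < Fin.tail a i := fun i => ha i.succ
    have hcons : ∀ c w, lin a (Fin.cons c w) = a 0 * c + lin (Fin.tail a) w := fun c w => by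
      simp [lin, Fin.sum_univ_succ, Fin.tail]
    have hfirst : (k + 1).factorial * (∏ i, a i) *
        ((fun w => Fin.cons (α := fun _ => ℕ) 0 w) '' below (Fin.tail a) T).ncard ≤
        (k + 1) * a 0 * (T + ∑ i, Fin.tail a i) ^ k := by
      calc (k + 1).factorial * (∏ i, a i) *
            ((fun w => Fin.cons (α := fun _ => ℕ) 0 w) '' below (Fin.tail a) T).ncard
          ≤ (k + 1).factorial * (∏ i, a i) * (below (Fin.tail a) T).ncard :=
            Nat.mul_le_mul_left _ (Set.ncard_image_le (below_finite ha' T))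
        _ = (k + 1) * a 0 * (k.factorial * (∏ i, Fin.tail a i) *
              (below (Fin.tail a) T).ncard) := by
            rw [Nat.factorial_succ, Fin.prod_univ_succ]
            simp only [Fin.tail]
            ring
        _ ≤ _ := Nat.mul_le_mul_left _ (ih _ ha' T)
    have hsum : T + ∑ i, a i = T + ∑ i, Fin.tail a i + a 0 := by
      simp only [Fin.sum_univ_succ, Fin.tail]
      ring
    rw [hsum]
    refine le_trans ?_ (bernoulli_add _ (a 0) k)
    by_cases hT : a 0 ≤ T
    · have hsplit : below a T ⊆ (fun w => Fin.cons (α := fun _ => ℕ) 0 w) '' below (Fin.tail a) T ∪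
          (fun w => Fin.cons (α := fun _ => ℕ) (w 0 + 1) (Fin.tail w)) '' below a (T - a 0) := by
        intro w hw
        rw [← Fin.cons_self_tail w, below, Set.mem_ofPred_eq, hcons] at hw
        rcases Nat.eq_zero_or_pos (w 0) with h | h
        · refine Or.inl ⟨Fin.tail w, ?_, ?_⟩
          · simp only [below, Set.mem_ofPred_eq]
            simpa [h] using hw
          · conv_rhs => rw [← Fin.cons_self_tail w]
            rw [h]
        · refine Or.inr ⟨Fin.cons (w 0 - 1) (Fin.tail w), ?_, ?_⟩
          · rw [below, Set.mem_ofPred_eq, hcons, Nat.mul_sub, mul_one]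
            have : a 0 ≤ a 0 * w 0 := Nat.le_mul_of_pos_right _ h
            omega
          · simp [Nat.sub_add_cancel h, Fin.cons_self_tail]
      have h2 : (k + 1).factorial * (∏ i, a i) *
          ((fun w => Fin.cons (α := fun _ => ℕ) (w 0 + 1) (Fin.tail w)) ''
            below a (T - a 0)).ncard ≤ (T + ∑ i, Fin.tail a i) ^ (k + 1) := by
        refine (Nat.mul_le_mul_left _ (Set.ncard_image_le (below_finite ha _))).trans
          ((iht (T - a 0) (by have := ha 0; omega)).trans_eq ?_)
        congr 1
        omega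
      refine (Nat.mul_le_mul_left _ ((Set.ncard_le_ncard hsplit ?_).trans
        (Set.ncard_union_le _ _))).trans ?_
      · exact ((below_finite ha' T).image _).union ((below_finite ha _).image _)
      · rw [Nat.mul_add]
        omega
    · have hsplit : below a T ⊆
          (fun w => Fin.cons (α := fun _ => ℕ) 0 w) '' below (Fin.tail a) T := by
        intro w hw
        rw [← Fin.cons_self_tail w, below, Set.mem_ofPred_eq, hcons] at hw
        have h0 : w 0 = 0 := by
          by_contra h
          have : a 0 ≤ a 0 * w 0 := Nat.le_mul_of_pos_right _ (Nat.pos_of_ne_zero h)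
          omega
        refine ⟨Fin.tail w, ?_, ?_⟩
        · simp only [below, Set.mem_ofPred_eq]
          simpa [h0] using hw
        · conv_rhs => rw [← Fin.cons_self_tail w]
          rw [h0]
      refine (Nat.mul_le_mul_left _ (Set.ncard_le_ncard hsplit
        ((below_finite ha' T).image _))).trans (hfirst.trans (Nat.le_add_left _ _))

variable {a : Fin n → ℕ} {m : ℕ} [NeZero m]

theorem le_top_pow (ha : ∀ i, 0 < a i) (hg : Nat.gcd (univ.gcd a) m = 1) :
    n.factorial * m * ∏ i, a i ≤ (top a m + ∑ i, a i) ^ n := by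
  refine le_trans ?_ (card_below_le a ha (top a m))
  rw [mul_right_comm]
  refine Nat.mul_le_mul_left _ ?_
  choose w hw hr using fun r : ZMod m => minRes_spec hg r
  calc m = (Set.univ : Set (ZMod m)).ncard := by rw [Set.ncard_univ, Nat.card_zmod]
    _ ≤ (below a (top a m)).ncard := by
        refine Set.ncard_le_ncard_of_injOn w (fun r _ => ?_) (fun r _ s _ h => ?_)
          (below_finite ha _)
        · simp only [below, Set.mem_ofPred_eq, hw]
          exact minRes_le_top r
        · rw [← hr r, ← hr s, ← hw r, ← hw s, h]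

/-- **Selmer**: the number of gaps. -/
theorem two_mul_card_gaps (hg : Nat.gcd (univ.gcd a) m = 1) :
    2 * m * {k : ℕ | ¬ Rep a m (k : ℤ)}.ncard + m * (m - 1) = 2 * ∑ r : ZMod m, minRes a m r := by
  obtain ⟨Φ, hΦ⟩ : ∃ Φ : (Σ _ : ZMod m, ℕ) → ℕ, Φ = fun p => p.1.val + m * p.2 := ⟨_, rfl⟩
  have hm : 0 < m := Nat.pos_of_ne_zero (NeZero.ne m)
  have hdec : ∀ r : ZMod m, minRes a m r = r.val + m * (minRes a m r / m) := fun r => by
    obtain ⟨w, -, hr⟩ := minRes_spec hg r
    have := congrArg ZMod.val hr
    rw [ZMod.val_natCast] at this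
    rw [← this, Nat.mod_add_div]
  have hset : {k : ℕ | ¬ Rep a m (k : ℤ)} =
      ↑((univ.sigma fun r : ZMod m => range (minRes a m r / m)).image Φ) := by
    ext k
    simp only [Set.mem_ofPred_eq, rep_iff hg, Int.cast_natCast, Nat.cast_le, not_le,
      Finset.coe_image, Set.mem_image, Finset.mem_coe, Finset.mem_sigma, mem_univ, true_and,
      Finset.mem_range, hΦ]
    constructor
    · intro h
      refine ⟨⟨(k : ZMod m), k / m⟩, ?_, ?_⟩
      · have h1 := hdec (k : ZMod m)
        rw [ZMod.val_natCast] at h1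
        have h2 := Nat.mod_add_div k m
        show k / m < minRes a m (k : ZMod m) / m
        by_contra hn
        have := Nat.mul_le_mul_left m (not_lt.1 hn)
        omega
      · rw [ZMod.val_natCast]
        exact Nat.mod_add_div k m
    · rintro ⟨⟨r, i⟩, hi, rfl⟩
      simp only at hi ⊢
      rw [Nat.cast_add, ZMod.natCast_zmod_val, Nat.cast_mul, ZMod.natCast_self, zero_mul, add_zero]
      have h1 := hdec r
      have := (Nat.mul_lt_mul_left hm).2 hi
      omega
  have hinj : Set.InjOn Φ
      ((univ.sigma fun r : ZMod m => range (minRes a m r / m)) : Finset (Σ _ : ZMod m, ℕ)) := by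
    rintro ⟨r, i⟩ - ⟨s, j⟩ - h
    simp only [hΦ] at h
    have h1 := congrArg (fun k : ℕ => (k : ZMod m)) h
    simp only [Nat.cast_add, Nat.cast_mul, ZMod.natCast_self, zero_mul, add_zero,
      ZMod.natCast_zmod_val] at h1
    subst h1
    obtain rfl : i = j := Nat.eq_of_mul_eq_mul_left hm (by omega)
    rfl
  rw [hset, Set.ncard_coe_finset, card_image_of_injOn hinj, card_sigma]
  simp only [card_range]
  conv_rhs => rw [Finset.sum_congr rfl fun r _ => hdec r, sum_add_distrib, ← mul_sum, mul_add]
  have hv : 2 * ∑ r : ZMod m, r.val = m * (m - 1) := by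
    have : ∑ r : ZMod m, r.val = ∑ i ∈ range m, i := by
      refine Finset.sum_nbij' (fun r => r.val) (fun i => (i : ZMod m)) (fun r _ => ?_)
        (fun i _ => mem_univ _) (fun r _ => ZMod.natCast_zmod_val r) (fun i hi => ?_)
        (fun r _ => rfl)
      · exact Finset.mem_range.2 (ZMod.val_lt r)
      · exact ZMod.val_natCast_of_lt (Finset.mem_range.1 hi)
    rw [this, mul_comm 2, sum_range_id_mul_two]
  rw [hv]
  ring

omit [NeZero m] in
theorem lin_mul_left (d : ℕ) (w : Fin n → ℕ) : lin (fun i => d * a i) w = d * lin a w := by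
  simp [lin, mul_sum, mul_assoc]

/-- **Johnson**: a common factor of all but one number. -/
theorem top_mul_left (hg : Nat.gcd (univ.gcd a) m = 1) {d : ℕ} (hd : d.Coprime m) :
    top (fun i => d * a i) m = d * top a m := by
  refine le_antisymm (top_le fun r => ?_) ?_
  · obtain ⟨w, hw, hr⟩ := minRes_spec hg ((((ZMod.unitOfCoprime d hd)⁻¹ : (ZMod m)ˣ) : ZMod m) * r)
    refine ⟨w, ?_, ?_⟩
    · rw [lin_mul_left, hw, Nat.cast_mul, hr, ← ZMod.coe_unitOfCoprime d hd, ← mul_assoc,
        Units.mul_inv, one_mul]
    · rw [lin_mul_left, hw]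
      exact Nat.mul_le_mul_left _ (minRes_le_top _)
  · obtain ⟨r, hr⟩ := exists_top_eq (a := a) (m := m)
    obtain ⟨w, hw, hwr⟩ := minRes_spec hg r
    have hne : ∃ v, v ∈ {v | ∃ u, lin (fun i => d * a i) u = v ∧ (v : ZMod m) = (d : ZMod m) * r} :=
      ⟨_, w, rfl, by rw [lin_mul_left, hw, Nat.cast_mul, hwr]⟩
    obtain ⟨u, hu, hur⟩ := Nat.sInf_mem hne
    refine le_trans ?_ (minRes_le_top ((d : ZMod m) * r))
    rw [minRes, ← hu, ← hr, lin_mul_left]
    refine Nat.mul_le_mul_left _ (minRes_le ?_)
    rw [← hu, lin_mul_left, Nat.cast_mul, ← ZMod.coe_unitOfCoprime d hd] at hur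
    exact (Units.mul_right_inj _).1 hur

theorem gcd_mul_left (hg : Nat.gcd (univ.gcd a) m = 1) {d : ℕ} (hd : d.Coprime m) :
    Nat.gcd (univ.gcd fun i => d * a i) m = 1 := by
  rw [Finset.gcd_mul_left, normalize_eq]
  exact Nat.Coprime.mul_left hd hg

end FA.FrobeniusProblem

end
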