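import Fermat.Agent.FrobeniusProblem.Basic
import Mathlib.Algebra.Group.Pointwise.Set.Basic
import Mathlib.Algebra.GroupWithZero.Pointwise.Set.Basic
import Mathlib.Analysis.RCLike.Basic
import Mathlib.Data.Real.Archimedean

/-!
# Kannan's covering radius

Translates of `σ • S` by the lattice cover space exactly when each residue class has a combination
at most `σ` less the sum of the `a i`, where `S` is the simplex `a ⬝ x ≤ 1` in the orthant.
-/

set_option autoImplicit false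

noncomputable section

open Finset
open scoped Pointwise

namespace FA.FrobeniusProblem

variable {n : ℕ} {a : Fin n → ℕ} {m : ℕ}

/-- The translates of the simplex of size `σ` by the lattice cover space. -/
def Covers (a : Fin n → ℕ) (m : ℕ) (σ : ℝ) : Prop :=
  ∀ x : Fin n → ℝ, ∃ l : Fin n → ℤ, (m : ℤ) ∣ ∑ i, (a i : ℤ) * l i ∧ (∀ i, (l i : ℝ) ≤ x i) ∧
    ∑ i, (a i : ℝ) * (x i - l i) ≤ σ

/-- The simplex. -/
def simplex (a : Fin n → ℕ) : Set (Fin n → ℝ) :=
  {x | (∀ i, 0 ≤ x i) ∧ ∑ i, (a i : ℝ) * x i ≤ 1}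

/-- The lattice. -/
def lattice (a : Fin n → ℕ) (m : ℕ) : Set (Fin n → ℝ) :=
  {x | ∃ l : Fin n → ℤ, (m : ℤ) ∣ ∑ i, (a i : ℤ) * l i ∧ x = fun i => (l i : ℝ)}

theorem mem_smul_simplex (ha : ∀ i, 0 < a i) {σ : ℝ} (hσ : 0 ≤ σ) {y : Fin n → ℝ} :
    y ∈ σ • simplex a ↔ (∀ i, 0 ≤ y i) ∧ ∑ i, (a i : ℝ) * y i ≤ σ := by
  rcases hσ.eq_or_lt with rfl | hpos
  · rw [Set.zero_smul_set (⟨0, fun i => le_rfl, by simp⟩ : (simplex a).Nonempty)]
    constructor
    · intro h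
      rw [Set.mem_zero] at h
      simp [h]
    · rintro ⟨h0, hs⟩
      have := (Finset.sum_eq_zero_iff_of_nonneg fun i _ => mul_nonneg (Nat.cast_nonneg _) (h0 i)).1
        (le_antisymm hs (sum_nonneg fun i _ => mul_nonneg (Nat.cast_nonneg _) (h0 i)))
      exact Set.mem_zero.2 (funext fun i =>
        (mul_eq_zero.1 (this i (mem_univ i))).resolve_left (Nat.cast_ne_zero.2 (ha i).ne'))
  · rw [Set.mem_smul_set_iff_inv_smul_mem₀ hpos.ne']
    simp only [simplex, Set.mem_ofPred_eq, Pi.smul_apply, smul_eq_mul]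
    refine and_congr (forall_congr' fun i => ?_) ?_
    · exact mul_nonneg_iff_of_pos_left (inv_pos.2 hpos)
    · rw [Finset.sum_congr rfl fun i _ => mul_left_comm (a i : ℝ) σ⁻¹ (y i), ← mul_sum,
        inv_mul_le_iff₀ hpos, mul_one]

theorem covers_iff (ha : ∀ i, 0 < a i) {σ : ℝ} (hσ : 0 ≤ σ) :
    σ • simplex a + lattice a m = Set.univ ↔ Covers a m σ := by
  rw [Set.eq_univ_iff_forall]
  refine forall_congr' fun x => ?_
  rw [Set.mem_add]
  constructor
  · rintro ⟨y, hy, z, ⟨l, hl, rfl⟩, rfl⟩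
    rw [mem_smul_simplex ha hσ] at hy
    refine ⟨l, hl, fun i => ?_, ?_⟩
    · simpa using hy.1 i
    · simpa using hy.2
  · rintro ⟨l, hl, h1, h2⟩
    refine ⟨fun i => x i - l i, (mem_smul_simplex ha hσ).2 ⟨fun i => sub_nonneg.2 (h1 i), h2⟩,
      fun i => (l i : ℝ), ⟨l, hl, rfl⟩, ?_⟩
    funext i
    simp

variable [NeZero m]

theorem covers_top (hg : Nat.gcd (univ.gcd a) m = 1) :
    Covers a m ((top a m : ℝ) + ∑ i, (a i : ℝ)) := fun x => by
  obtain ⟨r, hr⟩ : ∃ r : ZMod m, r = ∑ i, (a i : ZMod m) * (⌊x i⌋ : ZMod m) := ⟨_, rfl⟩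
  obtain ⟨w, hw, hwr⟩ := minRes_spec hg r
  refine ⟨fun i => ⌊x i⌋ - w i, ?_, fun i => ?_, ?_⟩
  · rw [← ZMod.intCast_zmod_eq_zero_iff_dvd]
    rw [← hw, hr, lin] at hwr
    push_cast at hwr ⊢
    simp only [mul_sub, sum_sub_distrib, hwr, sub_self]
  · push_cast
    linarith [Int.floor_le (x i), (Nat.cast_nonneg (w i) : (0 : ℝ) ≤ w i)]
  · have e : ∀ i, (a i : ℝ) * (x i - ((⌊x i⌋ - w i : ℤ) : ℝ)) =
        (a i : ℝ) * Int.fract (x i) + ((a i * w i : ℕ) : ℝ) := fun i => by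
      rw [← Int.self_sub_floor]
      push_cast
      ring
    rw [Finset.sum_congr rfl fun i _ => e i, sum_add_distrib, ← Nat.cast_sum, ← lin, hw]
    have h1 : ∑ i, (a i : ℝ) * Int.fract (x i) ≤ ∑ i, (a i : ℝ) := sum_le_sum fun i _ =>
      mul_le_of_le_one_right (Nat.cast_nonneg _) (Int.fract_lt_one _).le
    have h2 : (minRes a m r : ℝ) ≤ top a m := Nat.cast_le.2 (minRes_le_top r)
    linarith

theorem le_of_covers (hg : Nat.gcd (univ.gcd a) m = 1) {σ : ℝ} (h : Covers a m σ) :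
    (top a m : ℝ) + ∑ i, (a i : ℝ) ≤ σ := by
  refine le_of_forall_pos_le_add fun ε hε => ?_
  obtain ⟨r, hr⟩ := exists_top_eq (a := a) (m := m)
  obtain ⟨w, hw, hwr⟩ := minRes_spec hg r
  rw [← hw] at hwr
  obtain ⟨δ, hδ0, hδ1, hδε⟩ :
      ∃ δ : ℝ, 0 < δ ∧ δ < 1 ∧ δ * ∑ i, (a i : ℝ) ≤ ε := by
    have h0 : (0 : ℝ) ≤ ∑ i, (a i : ℝ) := sum_nonneg fun i _ => Nat.cast_nonneg _
    refine ⟨min (1 / 2) (ε / ((∑ i, (a i : ℝ)) + 1)), lt_min (by norm_num) (by positivity),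
      (min_le_left _ _).trans_lt (by norm_num), ?_⟩
    refine (mul_le_mul_of_nonneg_right (min_le_right _ _) h0).trans ?_
    rw [div_mul_eq_mul_div, div_le_iff₀ (by positivity)]
    nlinarith
  obtain ⟨l, hl, hle, hs⟩ := h fun i => (w i : ℝ) + 1 - δ
  have hnn : ∀ i, l i ≤ (w i : ℤ) := fun i => by
    refine Int.lt_add_one_iff.1 ?_
    have := hle i
    have : (l i : ℝ) < ((w i : ℤ) : ℝ) + 1 := by push_cast; linarith
    exact_mod_cast this
  obtain ⟨v, hv⟩ : ∃ v : Fin n → ℕ, v = fun i => ((w i : ℤ) - l i).toNat := ⟨_, rfl⟩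
  have hvi : ∀ i, (v i : ℤ) = (w i : ℤ) - l i := fun i => by
    rw [hv]
    exact Int.toNat_of_nonneg (sub_nonneg.2 (hnn i))
  have hle' : minRes a m r ≤ lin a v := by
    refine minRes_le ?_
    rw [← hwr]
    have e : (lin a v : ℤ) = (lin a w : ℤ) - ∑ i, (a i : ℤ) * l i := by
      simp only [lin]
      push_cast
      simp only [hvi, mul_sub, sum_sub_distrib]
    have := congrArg (fun z : ℤ => (z : ZMod m)) e
    simpa [(ZMod.intCast_zmod_eq_zero_iff_dvd _ m).2 hl] using this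
  have e : ∀ i, (a i : ℝ) * ((w i : ℝ) + 1 - δ - l i) =
      ((a i * v i : ℕ) : ℝ) + (a i : ℝ) - δ * a i := fun i => by
    have := congrArg (fun z : ℤ => (z : ℝ)) (hvi i)
    push_cast at this ⊢
    rw [this]
    ring
  rw [Finset.sum_congr rfl fun i _ => e i, sum_sub_distrib, sum_add_distrib, ← Nat.cast_sum,
    ← lin, ← mul_sum] at hs
  have : (top a m : ℝ) ≤ lin a v := by
    rw [← hr]
    exact_mod_cast hle'
  linarith

/-- **Kannan**: the covering radius is the largest least representative plus the sum of the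
`a i`. -/
theorem isLeast_covering (ha : ∀ i, 0 < a i) (hg : Nat.gcd (univ.gcd a) m = 1) :
    IsLeast {σ : ℝ | 0 ≤ σ ∧ σ • simplex a + lattice a m = Set.univ}
      ((top a m : ℝ) + ∑ i, (a i : ℝ)) := by
  refine ⟨⟨by positivity, (covers_iff ha (by positivity)).2 (covers_top hg)⟩, ?_⟩
  rintro σ ⟨hσ, h⟩
  exact le_of_covers hg ((covers_iff ha hσ).1 h)

end FA.FrobeniusProblem

end
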