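import Fermat.Agent.FrobeniusProblem.Basic
import Mathlib.Data.Real.Sqrt

/-!
# Davison's bound

With two numbers and a modulus the minimal combinations, ties broken by the first coordinate, form
a rectangle less a corner with `m` cells; the largest value on it gives the sharp bound
`3 a b m ≤ (g + a + b + m) ^ 2`.
-/

set_option autoImplicit false

noncomputable section

open Finset

namespace FA.FrobeniusProblem

variable {a b m : ℕ}

/-- The value of a pair. -/
def val2 (a b : ℕ) (v : ℕ × ℕ) : ℕ := a * v.1 + b * v.2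

/-- A pair that no pair of its class beats. -/
def Chosen (a b m : ℕ) (v : ℕ × ℕ) : Prop :=
  ∀ u : ℕ × ℕ, (val2 a b u : ZMod m) = val2 a b v →
    val2 a b v < val2 a b u ∨ (val2 a b v = val2 a b u ∧ v.1 ≤ u.1)

theorem chosen_down {v : ℕ × ℕ} {e : ℕ × ℕ} (h : Chosen a b m (v + e)) : Chosen a b m v :=
  fun u hu => by
    have := h (u + e) (by
      simp only [val2, Prod.fst_add, Prod.snd_add, mul_add]
      simp only [val2] at hu
      push_cast at hu ⊢
      linear_combination hu)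
    simp only [val2, Prod.fst_add, Prod.snd_add, mul_add] at this ⊢
    omega

theorem chosen_of_le {u v : ℕ × ℕ} (h : Chosen a b m v) (hle : u.1 ≤ v.1 ∧ u.2 ≤ v.2) :
    Chosen a b m u := by
  refine chosen_down (e := (v.1 - u.1, v.2 - u.2)) ?_
  rw [show u + (v.1 - u.1, v.2 - u.2) = v from Prod.ext (Nat.add_sub_cancel' hle.1)
    (Nat.add_sub_cancel' hle.2)]
  exact h

theorem chosen_unique (hb : 0 < b) {u v : ℕ × ℕ} (hu : Chosen a b m u) (hv : Chosen a b m v)
    (h : (val2 a b u : ZMod m) = val2 a b v) : u = v := by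
  have h1 := hu v h.symm
  have h2 := hv u h
  obtain ⟨e, e'⟩ : val2 a b u = val2 a b v ∧ u.1 = v.1 := by omega
  refine Prod.ext e' (Nat.eq_of_mul_eq_mul_left hb ?_)
  simp only [val2, e'] at e
  omega

theorem exists_chosen (a b : ℕ) {r : ZMod m} (h : ∃ v : ℕ × ℕ, (val2 a b v : ZMod m) = r) :
    ∃ v, Chosen a b m v ∧ (val2 a b v : ZMod m) = r := by
  classical
  have h1 : ∃ s, ∃ v : ℕ × ℕ, (val2 a b v : ZMod m) = r ∧ val2 a b v = s := by
    obtain ⟨v, hv⟩ := h
    exact ⟨_, v, hv, rfl⟩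
  have h2 : ∃ x, ∃ v : ℕ × ℕ, (val2 a b v : ZMod m) = r ∧ val2 a b v = Nat.find h1 ∧ v.1 = x := by
    obtain ⟨v, hv⟩ := Nat.find_spec h1
    exact ⟨_, v, hv.1, hv.2, rfl⟩
  obtain ⟨v, hv, hs, hx⟩ := Nat.find_spec h2
  refine ⟨v, fun u hu => ?_, hv⟩
  have hur := hu.trans hv
  rcases (Nat.find_min' h1 ⟨u, hur, rfl⟩).lt_or_eq with h' | h'
  · exact Or.inl (hs ▸ h')
  · exact Or.inr ⟨hs.trans h', hx ▸ Nat.find_min' h2 ⟨u, hur, h'.symm, rfl⟩⟩

theorem lin_two (a b : ℕ) (w : Fin 2 → ℕ) : lin ![a, b] w = val2 a b (w 0, w 1) := by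
  simp [lin, val2, Fin.sum_univ_two]

variable [NeZero m]

theorem val2_le_top (hg : Nat.gcd (univ.gcd ![a, b]) m = 1) {v : ℕ × ℕ} (hv : Chosen a b m v) :
    val2 a b v ≤ top ![a, b] m := by
  obtain ⟨w, hw, hr⟩ := minRes_spec hg ((val2 a b v : ℕ) : ZMod m)
  have h := minRes_le_top (a := ![a, b]) ((val2 a b v : ℕ) : ZMod m)
  rw [← hw, lin_two] at h hr
  rcases hv (w 0, w 1) hr with h' | h'
  · exact h'.le.trans h
  · exact h'.1.le.trans h

/-- **The L-shape theorem.** -/
theorem exists_lShape (hb : 0 < b) (hg : Nat.gcd (univ.gcd ![a, b]) m = 1) :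
    ∃ X Y w h : ℕ, w < X ∧ h < Y ∧ X * Y = m + w * h ∧ Chosen a b m (X - 1, Y - 1 - h) ∧
      Chosen a b m (X - 1 - w, Y - 1) := by
  classical
  have hex : ∀ r : ZMod m, ∃ v, Chosen a b m v ∧ (val2 a b v : ZMod m) = r := fun r => by
    refine exists_chosen a b ?_
    obtain ⟨w, hw⟩ := exists_class hg r
    exact ⟨(w 0, w 1), by rw [← hw, lin_two]⟩
  choose φ hφ hφr using hex
  have hmem : ∀ v, Chosen a b m v → φ (val2 a b v) = v := fun v hv =>
    chosen_unique hb (hφ _) hv (hφr _)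
  obtain ⟨D, hD⟩ : ∃ D : Finset (ℕ × ℕ), D = univ.image φ := ⟨_, rfl⟩
  have hDm : ∀ v, v ∈ D ↔ Chosen a b m v := fun v => by
    rw [hD, Finset.mem_image]
    exact ⟨fun ⟨r, _, e⟩ => e ▸ hφ r, fun hv => ⟨_, mem_univ _, hmem v hv⟩⟩
  have hcard : D.card = m := by
    rw [hD, card_image_of_injective _ fun r s e => by rw [← hφr r, e, hφr s], card_univ, ZMod.card]
  have hzero : Chosen a b m (0, 0) := fun u _ => by simp only [val2]; omega
  have hX : ∃ x, ¬ Chosen a b m (x, 0) := by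
    by_contra hcon
    have h1 : (D.filter fun v => v.2 = 0).card ≤ m := hcard ▸ card_filter_le _ _
    have h2 : (range (m + 1)).image (fun x => (x, 0)) ⊆ D.filter fun v => v.2 = 0 := fun v hv => by
      obtain ⟨x, -, rfl⟩ := Finset.mem_image.1 hv
      exact Finset.mem_filter.2 ⟨(hDm _).2 (not_not.1 (not_exists.1 hcon x)), rfl⟩
    have := card_le_card h2
    rw [card_image_of_injective _ fun x y e => (Prod.ext_iff.1 e).1, card_range] at this
    omega
  have hY : ∃ y, ¬ Chosen a b m (0, y) := by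
    by_contra hcon
    have h1 : (D.filter fun v => v.1 = 0).card ≤ m := hcard ▸ card_filter_le _ _
    have h2 : (range (m + 1)).image (fun x => (0, x)) ⊆ D.filter fun v => v.1 = 0 := fun v hv => by
      obtain ⟨x, -, rfl⟩ := Finset.mem_image.1 hv
      exact Finset.mem_filter.2 ⟨(hDm _).2 (not_not.1 (not_exists.1 hcon x)), rfl⟩
    have := card_le_card h2
    rw [card_image_of_injective _ fun x y e => (Prod.ext_iff.1 e).2, card_range] at this
    omega
  obtain ⟨X, hXd⟩ : ∃ X, X = Nat.find hX := ⟨_, rfl⟩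
  obtain ⟨Y, hYd⟩ : ∃ Y, Y = Nat.find hY := ⟨_, rfl⟩
  have hXp : 0 < X := by
    rw [hXd, Nat.find_pos, not_not]
    exact hzero
  have hYp : 0 < Y := by
    rw [hYd, Nat.find_pos, not_not]
    exact hzero
  have hXin : ∀ x < X, Chosen a b m (x, 0) := fun x hx => not_not.1 (Nat.find_min hX (hXd ▸ hx))
  have hYin : ∀ y < Y, Chosen a b m (0, y) := fun y hy => not_not.1 (Nat.find_min hY (hYd ▸ hy))
  have hbox : ∀ v, Chosen a b m v → v.1 < X ∧ v.2 < Y := fun v hv => by
    constructor <;> by_contra hn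
    · exact hXd ▸ Nat.find_spec hX <| chosen_of_le hv ⟨not_lt.1 hn, Nat.zero_le _⟩
    · exact hYd ▸ Nat.find_spec hY <| chosen_of_le hv ⟨Nat.zero_le _, not_lt.1 hn⟩
  by_cases hfull : ∀ v : ℕ × ℕ, v.1 < X → v.2 < Y → Chosen a b m v
  · refine ⟨X, Y, 0, 0, hXp, hYp, ?_, hfull _ (by simp [hXp]) (by simp [hYp]),
      hfull _ (by simp [hXp]) (by simp [hYp])⟩
    have hDeq : D = range X ×ˢ range Y := by
      ext v
      rw [hDm, Finset.mem_product, Finset.mem_range, Finset.mem_range]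
      exact ⟨hbox v, fun h => hfull v h.1 h.2⟩
    rw [hDeq, card_product, card_range, card_range] at hcard
    omega
  -- a point outside the diagram with both predecessors inside
  obtain ⟨out, hout⟩ : ∃ out : ℕ × ℕ → Prop, out = fun v =>
      v.1 < X ∧ v.2 < Y ∧ ¬ Chosen a b m v ∧ (∀ u : ℕ × ℕ, u.1 ≤ v.1 ∧ u.2 ≤ v.2 → u ≠ v →
        Chosen a b m u) := ⟨_, rfl⟩
  have hmin : ∀ v : ℕ × ℕ, v.1 < X → v.2 < Y → ¬ Chosen a b m v →
      ∃ p, out p ∧ p.1 ≤ v.1 ∧ p.2 ≤ v.2 := by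
    intro v hx hy hv
    have hex' : ∃ s, ∃ p : ℕ × ℕ, p.1 + p.2 = s ∧ p.1 ≤ v.1 ∧ p.2 ≤ v.2 ∧ ¬ Chosen a b m p :=
      ⟨_, v, rfl, le_rfl, le_rfl, hv⟩
    obtain ⟨p, hp, hp1, hp2, hp3⟩ := Nat.find_spec hex'
    refine ⟨p, ?_, hp1, hp2⟩
    rw [hout]
    refine ⟨by omega, by omega, hp3, fun u hu hne => by_contra fun hc => ?_⟩
    have := Nat.find_min' hex' ⟨u, rfl, hu.1.trans hp1, hu.2.trans hp2, hc⟩
    exact hne (Prod.ext (by omega) (by omega))
  have hpos : ∀ p, out p → 0 < p.1 ∧ 0 < p.2 := by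
    rintro ⟨x, y⟩ hp
    rw [hout] at hp
    constructor <;> by_contra hn
    · exact hp.2.2.1 (show x = 0 by omega ▸ hYin y hp.2.1)
    · exact hp.2.2.1 (show y = 0 by omega ▸ hXin x hp.1)
  have hclass : ∀ p, out p → (val2 a b p : ZMod m) = 0 := fun p hp => by
    obtain ⟨hp1, hp2⟩ := hpos p hp
    rw [hout] at hp
    obtain ⟨v, hv, hvr⟩ := exists_chosen a b (r := (val2 a b p : ZMod m)) ⟨p, rfl⟩
    by_contra hne
    have hv0 : v.1 = 0 ∧ v.2 = 0 := by
      constructor <;> by_contra hvn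
      · have e := chosen_unique hb (chosen_of_le hv (u := (v.1 - 1, v.2)) ⟨Nat.sub_le _ _, le_rfl⟩)
          (hp.2.2.2 (p.1 - 1, p.2) ⟨Nat.sub_le _ _, le_rfl⟩
            (fun e => by have := (Prod.ext_iff.1 e).1; simp only at this; omega)) (by
            simp only [val2] at hvr ⊢
            push_cast [Nat.cast_sub (show 1 ≤ v.1 by omega), Nat.cast_sub (show 1 ≤ p.1 by omega)]
              at hvr ⊢
            linear_combination hvr)
        simp only [Prod.ext_iff] at e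
        have evp : v = p := Prod.ext (by omega) e.2
        exact hp.2.2.1 (evp ▸ hv)
      · have e := chosen_unique hb (chosen_of_le hv (u := (v.1, v.2 - 1)) ⟨le_rfl, Nat.sub_le _ _⟩)
          (hp.2.2.2 (p.1, p.2 - 1) ⟨le_rfl, Nat.sub_le _ _⟩
            (fun e => by have := (Prod.ext_iff.1 e).2; simp only at this; omega)) (by
            simp only [val2] at hvr ⊢
            push_cast [Nat.cast_sub (show 1 ≤ v.2 by omega), Nat.cast_sub (show 1 ≤ p.2 by omega)]
              at hvr ⊢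
            linear_combination hvr)
        simp only [Prod.ext_iff] at e
        have evp : v = p := Prod.ext e.1 (by omega)
        exact hp.2.2.1 (evp ▸ hv)
    exact hne (by rw [← hvr]; simp [val2, hv0.1, hv0.2])
  have huniq : ∀ p q, out p → out q → p = q := by
    intro p q hp hq
    by_contra hne
    have hcp := hclass p hp
    have hcq := hclass q hq
    obtain ⟨hp1, hp2⟩ := hpos p hp
    obtain ⟨hq1, hq2⟩ := hpos q hq
    rw [hout] at hp hq
    have hnot : ∀ p q : ℕ × ℕ, p.1 < X → p.2 < Y → q.1 < X → q.2 < Y →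
        (val2 a b p : ZMod m) = 0 → (val2 a b q : ZMod m) = 0 → p.1 < q.1 → q.2 < p.2 → False :=
      fun p q _ hpY hqX _ hcp hcq h1 h2 => by
        have e := chosen_unique hb (hYin (p.2 - q.2) (by omega)) (hXin (q.1 - p.1) (by omega)) (by
          simp only [val2] at hcp hcq ⊢
          push_cast [Nat.cast_sub h2.le, Nat.cast_sub h1.le] at hcp hcq ⊢
          linear_combination hcp - hcq)
        simp only [Prod.ext_iff] at e
        omega
    rcases lt_trichotomy p.1 q.1 with h1 | h1 | h1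
    · rcases Nat.lt_or_ge q.2 p.2 with h2 | h2
      · exact hnot p q hp.1 hp.2.1 hq.1 hq.2.1 hcp hcq h1 h2
      · exact hp.2.2.1 (hq.2.2.2 p ⟨h1.le, h2⟩ hne)
    · rcases le_total q.2 p.2 with h2 | h2
      · exact hq.2.2.1 (hp.2.2.2 q ⟨h1.ge, h2⟩ (Ne.symm hne))
      · exact hp.2.2.1 (hq.2.2.2 p ⟨h1.le, h2⟩ hne)
    · rcases Nat.lt_or_ge p.2 q.2 with h2 | h2
      · exact hnot q p hq.1 hq.2.1 hp.1 hp.2.1 hcq hcp h1 h2
      · exact hq.2.2.1 (hp.2.2.2 q ⟨h1.le, h2⟩ (Ne.symm hne))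
  push Not at hfull
  obtain ⟨v₀, hx0, hy0, hv0⟩ := hfull
  obtain ⟨P, hP, -, -⟩ := hmin v₀ hx0 hy0 hv0
  obtain ⟨hP1, hP2⟩ := hpos P hP
  have hPo := hP
  rw [hout] at hPo
  have hiff : ∀ v : ℕ × ℕ, v.1 < X → v.2 < Y →
      (¬ Chosen a b m v ↔ P.1 ≤ v.1 ∧ P.2 ≤ v.2) := fun v hx hy => by
    constructor
    · intro hv
      obtain ⟨p, hp, h1, h2⟩ := hmin v hx hy hv
      rw [huniq p P hp hP] at h1 h2
      exact ⟨h1, h2⟩
    · intro h hv
      exact hPo.2.2.1 (chosen_of_le hv h)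
  refine ⟨X, Y, X - P.1, Y - P.2, by omega, by omega, ?_, ?_, ?_⟩
  · have hDeq : D = (range X ×ˢ range Y) \ (Finset.Ico P.1 X ×ˢ Finset.Ico P.2 Y) := by
      ext v
      simp only [hDm, Finset.mem_sdiff, Finset.mem_product, Finset.mem_range, Finset.mem_Ico]
      constructor
      · intro hv
        exact ⟨hbox v hv, fun h => (hiff v h.1.2 h.2.2).2 ⟨h.1.1, h.2.1⟩ hv⟩
      · rintro ⟨⟨hx, hy⟩, h⟩
        by_contra hv
        obtain ⟨h1, h2⟩ := (hiff v hx hy).1 hv
        exact h ⟨⟨h1, hx⟩, h2, hy⟩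
    have hsub : Finset.Ico P.1 X ×ˢ Finset.Ico P.2 Y ⊆ range X ×ˢ range Y := fun v hv => by
      simp only [Finset.mem_product, Finset.mem_range, Finset.mem_Ico] at hv ⊢
      omega
    have h4 := card_sdiff_add_card_eq_card hsub
    rw [← hDeq, hcard, card_product, card_product, Nat.card_Ico, Nat.card_Ico, card_range,
      card_range] at h4
    exact h4.symm
  · by_contra hv
    have := (hiff _ (show X - 1 < X by omega) (show Y - 1 - (Y - P.2) < Y by omega)).1 hv
    simp only at this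
    omega
  · by_contra hv
    have := (hiff _ (show X - 1 - (X - P.1) < X by omega) (show Y - 1 < Y by omega)).1 hv
    simp only at this
    omega

/-- **Davison's inequality.** -/
theorem davison (hb : 0 < b) (hg : Nat.gcd (univ.gcd ![a, b]) m = 1) :
    (3 * a * b * m : ℤ) ≤ ((top ![a, b] m : ℤ) + a + b) ^ 2 := by
  obtain ⟨X, Y, w, h, hw, hh, hm, h1, h2⟩ := exists_lShape hb hg
  have e1 : (a : ℤ) * X + b * (Y - h) ≤ (top ![a, b] m : ℤ) + a + b := by
    have := (Nat.cast_le (α := ℤ)).2 (val2_le_top hg h1)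
    simp only [val2] at this
    push_cast [Nat.cast_sub (show 1 ≤ X by omega), Nat.cast_sub (show h ≤ Y - 1 by omega),
      Nat.cast_sub (show 1 ≤ Y by omega)] at this
    linarith
  have e2 : (a : ℤ) * (X - w) + b * Y ≤ (top ![a, b] m : ℤ) + a + b := by
    have := (Nat.cast_le (α := ℤ)).2 (val2_le_top hg h2)
    simp only [val2] at this
    push_cast [Nat.cast_sub (show 1 ≤ X by omega), Nat.cast_sub (show w ≤ X - 1 by omega),
      Nat.cast_sub (show 1 ≤ Y by omega)] at this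
    linarith
  have hm' : (X : ℤ) * Y = m + w * h := by exact_mod_cast hm
  have key : ∀ u v p q M : ℤ, 0 ≤ p → 0 ≤ q → p ≤ u → q ≤ v → u + (v - q) ≤ M → (u - p) + v ≤ M →
      3 * (u * v - p * q) ≤ M ^ 2 := by
    intro u v p q M hp hq hpu hqv hM1 hM2
    rcases le_total p q with hpq | hpq
    · have : p * p ≤ p * q := mul_le_mul_of_nonneg_left hpq hp
      nlinarith [sq_nonneg (u - v), sq_nonneg (u + v - 4 * p),
        mul_le_mul hM2 hM2 (show 0 ≤ (u - p) + v by linarith) (show 0 ≤ M by linarith)]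
    · have : q * q ≤ p * q := mul_le_mul_of_nonneg_right hpq hq
      nlinarith [sq_nonneg (u - v), sq_nonneg (u + v - 4 * q),
        mul_le_mul hM1 hM1 (show 0 ≤ u + (v - q) by linarith) (show 0 ≤ M by linarith)]
  have := key (a * X) (b * Y) (a * w) (b * h) ((top ![a, b] m : ℤ) + a + b) (by positivity)
    (by positivity) (mul_le_mul_of_nonneg_left (by exact_mod_cast hw.le) (by positivity))
    (mul_le_mul_of_nonneg_left (by exact_mod_cast hh.le) (by positivity))
    (by linarith) (by linarith)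
  calc (3 * a * b * m : ℤ) = 3 * ((a : ℤ) * X * (b * Y) - a * w * (b * h)) := by
        rw [show (m : ℤ) = X * Y - w * h by linarith]
        ring
    _ ≤ _ := this

end FA.FrobeniusProblem

end
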