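import Fermat.Agent.FrobeniusProblem.Basic
import Fermat.Agent.Kneser.Kneser

/-!
# The bound of Erdős and Graham

If `0 ∈ A` and no proper subgroup of `ZMod m` holds `A`, then `j A` gains at least half of `|A|` at
every step until it is everything, so `h A` is everything once `h ≥ 2 ⌊m / |A|⌋`.
-/

set_option autoImplicit false

noncomputable section

open Finset FA.Kneser
open scoped Pointwise

namespace FA.FrobeniusProblem

/-- The sums of `j` elements of `A`. -/
def sums {G : Type*} [AddCommGroup G] [DecidableEq G] (A : Finset G) : ℕ → Finset G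
  | 0 => {0}
  | j + 1 => sums A j + A

variable {G : Type*} [AddCommGroup G] [DecidableEq G] [Fintype G] {A : Finset G}

omit [Fintype G] in
theorem zero_mem_sums (h0 : (0 : G) ∈ A) : ∀ j, (0 : G) ∈ sums A j
  | 0 => mem_singleton_self 0
  | j + 1 => mem_add.2 ⟨0, zero_mem_sums h0 j, 0, h0, add_zero 0⟩

omit [Fintype G] in
theorem sums_mono (h0 : (0 : G) ∈ A) {i j : ℕ} (h : i ≤ j) : sums A i ⊆ sums A j := by
  induction h with
  | refl => exact Subset.rfl
  | step _ ih => exact fun x hx => mem_add.2 ⟨x, ih hx, 0, h0, add_zero x⟩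

theorem two_mul_card_sums (h0 : (0 : G) ∈ A)
    (hgen : ∀ H : AddSubgroup G, (∀ x ∈ A, x ∈ H) → H = ⊤) :
    ∀ j, 1 ≤ j → sums A j = univ ∨ (j + 1) * A.card ≤ 2 * (sums A j).card := by
  intro j hj
  induction j, hj using Nat.le_induction with
  | base =>
    refine Or.inr ?_
    rw [show sums A 1 = {0} + A from rfl, singleton_add, card_vadd_finset]
  | succ j _ ih =>
    rcases ih with h | h
    · refine Or.inl (eq_univ_iff_forall.2 fun x => sums_mono h0 (Nat.le_succ j) ?_)
      rw [h]
      exact mem_univ x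
    obtain ⟨C, hC⟩ : ∃ C, C = sums A j + A := ⟨_, rfl⟩
    have hne : (sums A j).Nonempty := ⟨0, zero_mem_sums h0 j⟩
    have hAne : A.Nonempty := ⟨0, h0⟩
    have hCne : C.Nonempty := hC ▸ hne.add hAne
    have hk := card_add_fstab_add_card_le hne hAne
    rw [← hC] at hk
    show sums A j + A = univ ∨ (j + 1 + 1) * A.card ≤ 2 * (sums A j + A).card
    rw [← hC]
    obtain ⟨H, hH⟩ : ∃ H, H = fstab C := ⟨_, rfl⟩
    rw [← hH] at hk
    by_cases hsub : ∀ x ∈ A, x ∈ H
    · left
      let K : AddSubgroup G :=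
        { carrier := (H : Set G)
          zero_mem' := by rw [hH]; exact zero_mem_fstab hCne
          add_mem' := fun {x y} hx hy => by
            rw [hH] at hx hy ⊢
            exact add_mem_fstab hCne hx hy
          neg_mem' := fun {x} hx => by
            rw [hH] at hx ⊢
            exact neg_mem_fstab hCne hx }
      have hK := hgen K hsub
      obtain ⟨c, hc⟩ := hCne
      refine eq_univ_iff_forall.2 fun x => ?_
      have hx : x - c ∈ K := hK ▸ AddSubgroup.mem_top _
      have hx' : x - c ∈ fstab C := hH ▸ hx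
      have := (add_fstab_mem_iff ⟨c, hc⟩ hx' c).2 hc
      rwa [add_sub_cancel] at this
    · right
      push Not at hsub
      obtain ⟨x, hxA, hxH⟩ := hsub
      have h1 : 2 * H.card ≤ (A + H).card := by
        have hd : Disjoint H (x +ᵥ H) := by
          rw [Finset.disjoint_left]
          intro y hy hy'
          obtain ⟨k, hk', rfl⟩ := mem_vadd_finset.1 hy'
          rw [hH] at hy hk' hxH
          exact hxH (by simpa using sub_mem_fstab hCne hy hk')
        have hs : H ∪ (x +ᵥ H) ⊆ A + H := by
          intro y hy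
          rcases mem_union.1 hy with hy | hy
          · exact mem_add.2 ⟨0, h0, y, hy, zero_add y⟩
          · obtain ⟨k, hk', rfl⟩ := mem_vadd_finset.1 hy
            exact mem_add.2 ⟨x, hxA, k, hk', rfl⟩
        have := card_le_card hs
        rw [card_union_of_disjoint hd, card_vadd_finset] at this
        omega
      have h2 : A.card ≤ (A + H).card := card_le_card fun y hy =>
        mem_add.2 ⟨y, hy, 0, hH ▸ zero_mem_fstab hCne, add_zero y⟩
      have h3 : (sums A j).card ≤ (sums A j + H).card := card_le_card fun y hy =>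
        mem_add.2 ⟨y, hy, 0, hH ▸ zero_mem_fstab hCne, add_zero y⟩
      have e : (j + 1 + 1) * A.card = (j + 1) * A.card + A.card := by ring
      omega

theorem sums_eq_univ (h0 : (0 : G) ∈ A)
    (hgen : ∀ H : AddSubgroup G, (∀ x ∈ A, x ∈ H) → H = ⊤) {h : ℕ}
    (hh : 2 * (Fintype.card G / A.card) ≤ h) : sums A h = univ := by
  obtain ⟨q, hq⟩ : ∃ q, q = Fintype.card G / A.card := ⟨_, rfl⟩
  have hk : 0 < A.card := card_pos.2 ⟨0, h0⟩
  have hq1 : 1 ≤ q := by
    rw [hq, Nat.one_le_div_iff hk]
    exact card_le_univ A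
  obtain ⟨i, hi⟩ : ∃ i, i + 1 = 2 * q := ⟨2 * q - 1, by omega⟩
  have hlt : Fintype.card G < q * A.card + A.card := by
    have := Nat.lt_div_mul_add (a := Fintype.card G) hk
    rwa [← hq] at this
  refine eq_univ_iff_forall.2 fun x => sums_mono h0 (hi.trans_le (hq ▸ hh)) ?_
  rcases two_mul_card_sums h0 hgen i (by omega) with hu | hu
  · exact mem_add.2 ⟨x, by rw [hu]; exact mem_univ x, 0, h0, add_zero x⟩
  · by_contra hx
    have hd : Disjoint (sums A i) (A.image fun y => x - y) := by
      rw [Finset.disjoint_left]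
      intro y hy hy'
      obtain ⟨z, hz, rfl⟩ := Finset.mem_image.1 hy'
      exact hx (mem_add.2 ⟨_, hy, z, hz, sub_add_cancel x z⟩)
    have hc := card_le_univ (sums A i ∪ A.image fun y => x - y)
    rw [card_union_of_disjoint hd, card_image_of_injective _ sub_right_injective] at hc
    have e : (i + 1) * A.card = 2 * (q * A.card) := by rw [hi, mul_assoc]
    omega

omit [Fintype G] in
theorem exists_combination {n : ℕ} {v : Fin n → G} (hA : ∀ x ∈ A, x = 0 ∨ ∃ i, v i = x) :
    ∀ (j : ℕ) (x : G), x ∈ sums A j → ∃ w : Fin n → ℕ, (∑ i, w i) ≤ j ∧ ∑ i, w i • v i = x := by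
  intro j
  induction j with
  | zero =>
    intro x hx
    rw [show sums A 0 = {0} from rfl, mem_singleton] at hx
    exact ⟨0, by simp, by simp [hx]⟩
  | succ j ih =>
    intro x hx
    obtain ⟨y, hy, z, hz, rfl⟩ := mem_add.1 hx
    obtain ⟨w, hw, hwy⟩ := ih y hy
    rcases hA z hz with rfl | ⟨i, rfl⟩
    · exact ⟨w, hw.trans (Nat.le_succ j), by rw [add_zero, hwy]⟩
    · refine ⟨w + Pi.single i 1, ?_, ?_⟩
      · simp only [Pi.add_apply, sum_add_distrib, sum_pi_single', mem_univ, if_pos]
        omega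
      · simp only [Pi.add_apply, add_smul, sum_add_distrib, hwy]
        congr 1
        rw [sum_eq_single i (fun k _ hk => by simp [hk]) (fun h => absurd (mem_univ i) h)]
        simp

/-- **Erdős and Graham**: the largest least representative. -/
theorem top_le_erdos_graham {n : ℕ} {a : Fin n → ℕ} {m M : ℕ} [NeZero m]
    (hg : Nat.gcd (univ.gcd a) m = 1) (hinj : Function.Injective a)
    (hpos : ∀ i, 0 < a i) (hlt : ∀ i, a i < m) (hM : ∀ i, a i ≤ M) :
    top a m ≤ 2 * (m / (n + 1)) * M := by
  obtain ⟨A, hA⟩ : ∃ A : Finset (ZMod m), A = insert 0 (univ.image fun i => (a i : ZMod m)) :=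
    ⟨_, rfl⟩
  have hval : ∀ i, ((a i : ℕ) : ZMod m).val = a i := fun i => ZMod.val_natCast_of_lt (hlt i)
  have hcard : A.card = n + 1 := by
    rw [hA, card_insert_of_notMem, card_image_of_injective, card_univ, Fintype.card_fin]
    · intro i j h
      exact hinj (by rw [← hval i, ← hval j]; exact congrArg ZMod.val h)
    · simp only [Finset.mem_image, mem_univ, true_and, not_exists]
      intro i h
      have := congrArg ZMod.val h
      rw [hval, ZMod.val_zero] at this
      exact absurd this (hpos i).ne'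
  have hmem : ∀ i, (a i : ZMod m) ∈ A := fun i => by
    rw [hA]
    exact mem_insert_of_mem (Finset.mem_image_of_mem _ (mem_univ i))
  have hgen : ∀ H : AddSubgroup (ZMod m), (∀ x ∈ A, x ∈ H) → H = ⊤ := fun H hH => by
    refine (AddSubgroup.eq_top_iff' H).2 fun r => ?_
    obtain ⟨w, rfl⟩ := exists_class hg r
    rw [lin, Nat.cast_sum]
    refine sum_mem fun i _ => ?_
    rw [Nat.cast_mul, mul_comm, ← nsmul_eq_mul]
    exact H.nsmul_mem (hH _ (hmem i)) _
  refine top_le fun r => ?_
  have h0 : (0 : ZMod m) ∈ A := by rw [hA]; exact mem_insert_self _ _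
  have hr : r ∈ sums A (2 * (m / (n + 1))) := by
    rw [sums_eq_univ h0 hgen (by rw [ZMod.card, hcard])]
    exact mem_univ r
  obtain ⟨w, hw, hwr⟩ := exists_combination (v := fun i => (a i : ZMod m)) (fun x hx => by
    rw [hA, mem_insert, Finset.mem_image] at hx
    rcases hx with h | ⟨i, -, h⟩
    exacts [Or.inl h, Or.inr ⟨i, h⟩]) _ r hr
  refine ⟨w, ?_, ?_⟩
  · rw [← hwr, lin, Nat.cast_sum]
    refine Finset.sum_congr rfl fun i _ => ?_
    rw [nsmul_eq_mul, Nat.cast_mul, mul_comm]
  · calc lin a w ≤ ∑ i, M * w i := sum_le_sum fun i _ => Nat.mul_le_mul_right _ (hM i)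
      _ = M * ∑ i, w i := (mul_sum _ _ _).symm
      _ ≤ M * (2 * (m / (n + 1))) := Nat.mul_le_mul_left _ hw
      _ = 2 * (m / (n + 1)) * M := mul_comm _ _

end FA.FrobeniusProblem

end
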