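import Mathlib.Data.ZMod.Basic
import Mathlib.Algebra.BigOperators.Fin
import Mathlib.Tactic.Linarith
import Mathlib.Tactic.LinearCombination
import Mathlib.Tactic.Ring
import Mathlib.Tactic.Positivity
import Mathlib.Algebra.Order.Ring.Int

/-!
# Roberts's formula

The combinations of `a, a + d, …, a + s d` are the numbers `j a + i d` with `i ≤ j s`; the largest
integer not of this shape follows by reading `i` modulo `a`.
-/

set_option autoImplicit false

noncomputable section

open Finset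

namespace FA.FrobeniusProblem

/-- A combination of the terms of the progression. -/
def RepAP (a d s : ℕ) (k : ℤ) : Prop :=
  ∃ w : Fin (s + 1) → ℕ, ∑ i : Fin (s + 1), ((a : ℤ) + (i : ℕ) * d) * (w i : ℤ) = k

theorem repAP_iff (a d s : ℕ) (k : ℤ) :
    RepAP a d s k ↔ ∃ j i : ℕ, i ≤ j * s ∧ k = (j : ℤ) * a + i * d := by
  constructor
  · rintro ⟨w, rfl⟩
    refine ⟨∑ i, w i, ∑ i : Fin (s + 1), (i : ℕ) * w i, ?_, ?_⟩
    · rw [sum_mul]
      exact sum_le_sum fun i _ => by
        rw [mul_comm (w i)]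
        exact Nat.mul_le_mul_right _ (Nat.lt_succ_iff.1 i.isLt)
    · push_cast
      rw [sum_mul, sum_mul, ← sum_add_distrib]
      exact Finset.sum_congr rfl fun i _ => by ring
  · rintro ⟨j, i, hi, rfl⟩
    induction j generalizing i with
    | zero =>
      obtain rfl : i = 0 := by omega
      exact ⟨0, by simp⟩
    | succ j ih =>
      obtain ⟨t, ht⟩ : ∃ t : Fin (s + 1), (t : ℕ) = min i s :=
        ⟨⟨min i s, Nat.lt_succ_of_le (min_le_right i s)⟩, rfl⟩
      obtain ⟨w, hw⟩ := ih (i - min i s) (by rw [Nat.succ_mul] at hi; omega)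
      refine ⟨w + Pi.single t 1, ?_⟩
      have h1 : ∑ x : Fin (s + 1), ((a : ℤ) + (x : ℕ) * d) *
          ((Pi.single t 1 : Fin (s + 1) → ℕ) x : ℤ) = (a : ℤ) + (t : ℕ) * d := by
        rw [sum_eq_single t (fun k _ hk => by simp [hk]) (fun h => absurd (mem_univ t) h)]
        simp
      simp only [Pi.add_apply, Nat.cast_add, mul_add, sum_add_distrib, hw, h1, ht]
      rw [Nat.cast_sub (min_le_left i s)]
      push_cast
      ring

variable {a d s : ℕ}

/-- **Roberts**. -/
theorem roberts (ha : 2 ≤ a) (hs : 1 ≤ s) (hd : d.Coprime a) :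
    IsGreatest {k : ℤ | ¬ RepAP a d s k}
      ((((a - 2) / s + 1 : ℕ) : ℤ) * a + ((d : ℤ) - 1) * ((a : ℤ) - 1) - 1) := by
  obtain ⟨q, hq⟩ : ∃ q, q = (a - 2) / s + 1 := ⟨_, rfl⟩
  rw [← hq]
  have hq1 : (q - 1) * s ≤ a - 2 := by
    rw [hq, Nat.add_sub_cancel]
    exact Nat.div_mul_le_self _ _
  have hq2 : a - 2 < q * s := by
    rw [hq]
    exact Nat.lt_mul_of_div_lt (Nat.lt_succ_self _) hs
  have hu : IsUnit (d : ZMod a) := (ZMod.isUnit_iff_coprime d a).2 hd
  have : NeZero a := ⟨by omega⟩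
  constructor
  · rw [Set.mem_ofPred_eq, repAP_iff]
    rintro ⟨j, i, hi, he⟩
    have hz : ((i : ℕ) : ZMod a) = (((a - 1 : ℕ)) : ZMod a) := by
      refine hu.mul_right_cancel ?_
      have := congrArg (fun z : ℤ => (z : ZMod a)) he
      push_cast [Nat.cast_sub (show 1 ≤ a by omega)] at this ⊢
      simp only [ZMod.natCast_self, mul_zero, zero_add, zero_sub, add_zero] at this ⊢
      linear_combination -this
    have hmod := (ZMod.natCast_eq_natCast_iff' i (a - 1) a).1 hz
    rw [Nat.mod_eq_of_lt (show a - 1 < a by omega)] at hmod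
    have hia : a - 1 ≤ i := hmod ▸ Nat.mod_le i a
    have hj : j ≤ q - 1 := by
      by_contra hj
      have h1 : (q : ℤ) * a ≤ (j : ℤ) * a := by
        have : q ≤ j := by omega
        exact_mod_cast Nat.mul_le_mul_right a this
      have h2 : ((a : ℤ) - 1) * d ≤ (i : ℤ) * d := by
        refine mul_le_mul_of_nonneg_right ?_ (Nat.cast_nonneg d)
        omega
      have e : (q : ℤ) * a + ((d : ℤ) - 1) * ((a : ℤ) - 1) - 1 = q * a + ((a : ℤ) - 1) * d - a := by
        ring
      omega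
    have := Nat.mul_le_mul_right s hj
    omega
  · intro k hk
    by_contra hgt
    rw [not_le] at hgt
    refine hk ((repAP_iff a d s k).2 ?_)
    obtain ⟨i, hi⟩ : ∃ i : ℕ, i = ((k : ZMod a) * (hu.unit⁻¹ : (ZMod a)ˣ)).val := ⟨_, rfl⟩
    have hia : i < a := hi ▸ ZMod.val_lt _
    have hdvd : (a : ℤ) ∣ k - (i : ℤ) * d := by
      rw [← ZMod.intCast_zmod_eq_zero_iff_dvd, Int.cast_sub, Int.cast_mul, Int.cast_natCast,
        Int.cast_natCast, hi, ZMod.natCast_zmod_val, mul_assoc,
        show (((hu.unit⁻¹ : (ZMod a)ˣ) : ZMod a)) * (d : ZMod a) = 1 from hu.val_inv_mul, mul_one,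
        sub_self]
    obtain ⟨c, hc⟩ := hdvd
    have h2 : (i : ℤ) * d ≤ ((a : ℤ) - 1) * d := by
      refine mul_le_mul_of_nonneg_right ?_ (Nat.cast_nonneg d)
      omega
    have hqc : (q : ℤ) ≤ c := by
      by_contra hcq
      have : (a : ℤ) * c ≤ a * ((q : ℤ) - 1) :=
        mul_le_mul_of_nonneg_left (by omega) (Nat.cast_nonneg a)
      linarith
    refine ⟨c.toNat, i, ?_, ?_⟩
    · have h3 : q ≤ c.toNat := by omega
      have := Nat.mul_le_mul_right s h3
      omega
    · rw [Int.toNat_of_nonneg (le_trans (Nat.cast_nonneg q) hqc)]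
      linear_combination hc

end FA.FrobeniusProblem

end
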